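import Mathlib
import Fermat.Agent.LT.T6.Spec
import Fermat.Agent.LT.CFT.H49.HasseFinal

/-!
# Row LT, tower T6, input T6.00a `HasseNormTCC` (helper49), OFF-MAIN

`hasseNormTCC49 : Fermat.Agent.LT.T6.HasseNormTCC` (Spec v3 of helper22, sha256 8c5f2ae7):
the Hasse norm theorem for cyclic extensions `M/L`, `L` totally complex, local hypotheses =
norms from `L_u ⊗_L M` at the finite places.  UNCONDITIONAL.

Adapter to `Fermat.Agent.LT.CFT.H49.hasseNorm49 : CFT.HasseNormC` (approximation form
`IsLocalNormAt`): the norm of `L_u ⊗_L M` over `L_u` is a polynomial map with coefficients in `L`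
in the coordinates of a basis of `M/L`, hence continuous, and `L` is dense in `L_u`.
-/

set_option autoImplicit false
set_option linter.unusedSectionVars false
set_option linter.unusedVariables false

open IsDedekindDomain NumberField
open scoped TensorProduct

noncomputable section

namespace Fermat.Agent.LT.T6.H49

section Local

variable {L M : Type} [Field L] [NumberField L] [Field M] [NumberField M] [Algebra L M]
variable (u : HeightOneSpectrum (𝓞 L))

/-- Closed balls of `L_u` are open. -/
theorem isOpen_ball49 (x : u.adicCompletion L) (γ : ℤ) :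
    IsOpen {y : u.adicCompletion L | Valued.v (y - x) ≤ WithZero.exp γ} := by
  obtain ⟨c, hc⟩ := HeightOneSpectrum.valuedAdicCompletion_surjective L u (WithZero.exp γ)
  have hc0 : c ≠ 0 := by
    intro h0
    rw [h0, map_zero] at hc
    exact WithZero.exp_ne_zero hc.symm
  have hcont : Continuous fun y : u.adicCompletion L => (y - x) * c⁻¹ := by fun_prop
  have hopen := (Valued.isOpen_valuationSubring (u.adicCompletion L)).preimage hcont
  convert hopen using 1
  ext y
  simp only [Set.mem_ofPred_eq, Set.mem_preimage, SetLike.mem_coe,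
    Valuation.mem_valuationSubring_iff, map_mul, map_inv₀, hc]
  rw [mul_inv_le_iff₀ (by simp), one_mul]

variable {ι : Type} [Fintype ι] [DecidableEq ι] (b : Module.Basis ι L M)

theorem leftMulMatrix_one_tmul49 (m : M) :
    Algebra.leftMulMatrix (Algebra.TensorProduct.basis (u.adicCompletion L) b)
        ((1 : u.adicCompletion L) ⊗ₜ[L] m)
      = (Algebra.leftMulMatrix b m).map (algebraMap L (u.adicCompletion L)) := by
  ext i j
  rw [Algebra.leftMulMatrix_eq_repr_mul, Matrix.map_apply, Algebra.leftMulMatrix_eq_repr_mul,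
    Algebra.TensorProduct.basis_apply, Algebra.TensorProduct.tmul_mul_tmul, one_mul,
    Algebra.TensorProduct.basis_repr_tmul, one_smul, Finsupp.mapRange_apply]

theorem norm_one_tmul49 {κ : Type} [Fintype κ] [DecidableEq κ] (b : Module.Basis κ L M)
    (m : M) :
    Algebra.norm (u.adicCompletion L) ((1 : u.adicCompletion L) ⊗ₜ[L] m)
      = algebraMap L (u.adicCompletion L) (Algebra.norm L m) := by
  rw [Algebra.norm_eq_matrix_det (Algebra.TensorProduct.basis (u.adicCompletion L) b),
    leftMulMatrix_one_tmul49, Algebra.norm_eq_matrix_det b, RingHom.map_det]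
  rfl

/-- The coordinates of an element of `L_u ⊗ M`. -/
theorem sum_coord49 (y : u.adicCompletion L ⊗[L] M) :
    y = ∑ i, ((Algebra.TensorProduct.basis (u.adicCompletion L) b).repr y i)
      • (Algebra.TensorProduct.basis (u.adicCompletion L) b) i :=
  ((Algebra.TensorProduct.basis (u.adicCompletion L) b).sum_repr y).symm

theorem sum_global49 (c : ι → L) :
    ∑ i, (algebraMap L (u.adicCompletion L) (c i))
        • (Algebra.TensorProduct.basis (u.adicCompletion L) b) i
      = (1 : u.adicCompletion L) ⊗ₜ[L] (∑ i, c i • b i) := by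
  rw [TensorProduct.tmul_sum]
  refine Finset.sum_congr rfl fun i _ => ?_
  rw [Algebra.TensorProduct.basis_apply, TensorProduct.smul_tmul', smul_eq_mul, mul_one,
    TensorProduct.tmul_smul, Algebra.algebraMap_eq_smul_one, TensorProduct.smul_tmul']

/-- The norm in coordinates is continuous. -/
theorem continuous_normCoord49 :
    Continuous fun a : ι → u.adicCompletion L =>
      Algebra.norm (u.adicCompletion L)
        (∑ i, a i • (Algebra.TensorProduct.basis (u.adicCompletion L) b) i) := by
  have e : (fun a : ι → u.adicCompletion L =>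
      Algebra.norm (u.adicCompletion L)
        (∑ i, a i • (Algebra.TensorProduct.basis (u.adicCompletion L) b) i))
      = fun a : ι → u.adicCompletion L =>
        Matrix.det (∑ i, a i • Algebra.leftMulMatrix
          (Algebra.TensorProduct.basis (u.adicCompletion L) b)
          ((Algebra.TensorProduct.basis (u.adicCompletion L) b) i)) := by
    funext a
    rw [Algebra.norm_eq_matrix_det (Algebra.TensorProduct.basis (u.adicCompletion L) b),
      map_sum]
    simp only [map_smul]
  rw [e]
  apply Continuous.matrix_det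
  apply continuous_finsetSum
  intro i _
  exact (continuous_apply i).smul continuous_const

/-- A local norm from `L_u ⊗ M` is approximated by global norms. -/
theorem exists_global_approx49 (x : L) (hx : x ≠ 0) (y : u.adicCompletion L ⊗[L] M)
    (hy : Algebra.norm (u.adicCompletion L) y = algebraMap L (u.adicCompletion L) x) (N : ℕ) :
    ∃ y' : M, y' ≠ 0 ∧ u.valuation L (x / Algebra.norm L y' - 1) ≤ WithZero.exp (-(N : ℤ)) := by
  classical
  set b := Module.finBasis L M with hb
  set bA := Algebra.TensorProduct.basis (u.adicCompletion L) b with hbA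
  have hvx : u.valuation L x ≠ 0 := (Valuation.ne_zero_iff _).2 hx
  set γ : ℤ := -((N : ℤ) + 1) + WithZero.log (u.valuation L x) with hγ
  have hopen := (isOpen_ball49 u (algebraMap L (u.adicCompletion L) x) γ).preimage
    (continuous_normCoord49 u b)
  have hmem : (fun i => bA.repr y i) ∈ (fun a : Fin (Module.finrank L M) → u.adicCompletion L =>
      Algebra.norm (u.adicCompletion L) (∑ i, a i • bA i)) ⁻¹'
        {z : u.adicCompletion L | Valued.v (z - algebraMap L (u.adicCompletion L) x)
          ≤ WithZero.exp γ} := by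
    rw [Set.mem_preimage]
    have e : ∑ i, bA.repr y i • bA i = y := bA.sum_repr y
    rw [e, hy]
    simp
  obtain ⟨c, hc⟩ := (DenseRange.piMap (fun _ : Fin (Module.finrank L M) =>
    HeightOneSpectrum.denseRange_algebraMap L u)).exists_mem_open hopen ⟨_, hmem⟩
  set y' : M := ∑ i, c i • b i with hy'
  have h1 : Valued.v (algebraMap L (u.adicCompletion L) (Algebra.norm L y')
      - algebraMap L (u.adicCompletion L) x) ≤ WithZero.exp γ := by
    have h := hc
    rw [Set.mem_preimage] at h
    have e : ∑ i, (Pi.map (fun _ : Fin (Module.finrank L M) =>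
        (algebraMap L (u.adicCompletion L))) c) i • bA i
        = (1 : u.adicCompletion L) ⊗ₜ[L] y' := sum_global49 u b c
    rw [e, norm_one_tmul49 u b] at h
    exact h
  have h2 : u.valuation L (Algebra.norm L y' - x) ≤ WithZero.exp γ := by
    rw [← map_sub] at h1
    have e := HeightOneSpectrum.valuedAdicCompletion_eq_valuation' u (Algebra.norm L y' - x)
    rw [← e]
    exact h1
  have hγx : WithZero.exp γ = WithZero.exp (-((N : ℤ) + 1)) * u.valuation L x := by
    rw [hγ, WithZero.exp_add, WithZero.exp_log hvx]
  have hlt : u.valuation L (Algebra.norm L y' - x) < u.valuation L x := by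
    refine lt_of_le_of_lt h2 ?_
    rw [hγx]
    have h3 : WithZero.exp (-((N : ℤ) + 1)) < (1 : WithZero (Multiplicative ℤ)) := by
      rw [← WithZero.exp_zero, WithZero.exp_lt_exp]
      omega
    calc WithZero.exp (-((N : ℤ) + 1)) * u.valuation L x < 1 * u.valuation L x :=
          mul_lt_mul_of_pos_right h3 (zero_lt_iff.2 hvx)
      _ = u.valuation L x := one_mul _
  have hNy : u.valuation L (Algebra.norm L y') = u.valuation L x := by
    have e : Algebra.norm L y' = x + (Algebra.norm L y' - x) := by ring
    rw [e]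
    exact Valuation.map_add_eq_of_lt_left _ hlt
  have hNy0 : Algebra.norm L y' ≠ 0 := by
    intro h
    rw [h, map_zero] at hNy
    exact hvx hNy.symm
  have hy'0 : y' ≠ 0 := by
    intro h
    rw [h, Algebra.norm_zero] at hNy0
    exact hNy0 rfl
  refine ⟨y', hy'0, ?_⟩
  have e : x / Algebra.norm L y' - 1 = -(Algebra.norm L y' - x) / Algebra.norm L y' := by
    field_simp
    ring
  rw [e, map_div₀, Valuation.map_neg, hNy, div_le_iff₀ (zero_lt_iff.2 hvx)]
  refine le_trans h2 ?_
  rw [hγx]
  have h4 : WithZero.exp (-((N : ℤ) + 1)) ≤ WithZero.exp (-(N : ℤ)) := by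
    rw [WithZero.exp_le_exp]
    omega
  exact mul_le_mul' h4 le_rfl

/-- **The local adapter**: tensor form ⟹ approximation form. -/
theorem isLocalNormAt_of_tensor49 (x : L) (hx : x ≠ 0)
    (h : ∃ y : u.adicCompletion L ⊗[L] M,
      Algebra.norm (u.adicCompletion L) y = algebraMap L (u.adicCompletion L) x) :
    Fermat.Agent.LT.CFT.IsLocalNormAt L M u x := by
  intro N
  obtain ⟨y, hy⟩ := h
  obtain ⟨y', hy'0, hclose⟩ := exists_global_approx49 u x hx y hy N
  have hNy0 : Algebra.norm L y' ≠ 0 := Algebra.norm_ne_zero_iff.2 hy'0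
  set δ : L := x / Algebra.norm L y' - 1 with hδ
  have hle1 : WithZero.exp (-(N : ℤ)) ≤ (1 : WithZero (Multiplicative ℤ)) := by
    rw [← WithZero.exp_zero, WithZero.exp_le_exp]
    omega
  obtain ⟨n, d, hnd⟩ := u.exists_primeCompl_mul_eq_of_integer δ (hclose.trans hle1)
  have hd1 : u.valuation L (algebraMap (𝓞 L) L (d : 𝓞 L)) = 1 :=
    (HeightOneSpectrum.valuation_eq_one_iff_notMem u).2 d.2
  have hn' : u.valuation L (algebraMap (𝓞 L) L n) ≤ WithZero.exp (-(N : ℤ)) := by
    rw [← hnd, map_mul, hd1, mul_one]
    exact hclose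
  have hn : n ∈ u.asIdeal ^ N := by
    rw [← HeightOneSpectrum.intValuation_le_pow_iff_mem]
    rw [HeightOneSpectrum.valuation_of_algebraMap] at hn'
    exact hn'
  refine ⟨y', n + (d : 𝓞 L), (d : 𝓞 L), hy'0, d.2, ?_, ?_⟩
  · rw [add_sub_cancel_right]
    exact hn
  · change x * algebraMap (𝓞 L) L (d : 𝓞 L)
      = Algebra.norm L y' * algebraMap (𝓞 L) L (n + (d : 𝓞 L))
    rw [map_add, ← hnd, hδ]
    field_simp
    ring

end Local

/-- **T6.00a** `HasseNormTCC`: the Hasse norm theorem, totally complex base, tensor form. -/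
theorem hasseNormTCC49 : Fermat.Agent.LT.T6.HasseNormTCC := by
  intro L M _ _ _ _ _ _ hcyc _ hTC x hx hloc
  exact Fermat.Agent.LT.CFT.H49.hasseNorm49 L M hTC hcyc x hx
    (fun v => isLocalNormAt_of_tensor49 v x hx (hloc v))

end Fermat.Agent.LT.T6.H49

end
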